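import Fermat.Agent.General.SS.AuxLevels
import Fermat.Agent.General.Flat.CurvePoint
import Fermat.Agent.General.Flat.JTorsion
import Fermat.Agent.General.Top.AuxSet
import Fermat.Agent.General.Top.OddResidual
import Fermat.Agent.General.Top.Tail
import Fermat.Agent.CFT.Inputs
import Fermat.Agent.GalCoh.GW.Final

/-!
# Lifting, supersingular case

Lifting at an odd prime of good supersingular reduction.
-/

set_option autoImplicit false

noncomputable section

open IsLocalRing Fermat.Agent.DefRing Fermat.Agent.Deform Fermat.Agent.Engine Fermat.Agent.Engine.Top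

namespace Fermat.Agent.General

local notation "Qbar" => AlgebraicClosure ℚ

variable {W : WeierstrassCurve ℤ} {p : ℕ} [Fact p.Prime] {C : Coeff p}

/-- The point of the curve on the ring of the flat condition. -/
theorem SS.exists_curvePoint (R : ResidualData W C) (h : OddResidual W p)
    (hgood : W.IsGoodPrimeFor p) (hap : (p : ℤ) ∣ W.apOfModel p) {A : ValuationSubring Qbar}
    (hA : A.LiesOverPrime p) {S : Finset ℕ}
    (hbad : ∀ q : ℕ, q.Prime → (q : ℤ) ∣ W.Δ → q ≠ p → q ∈ Smin W p ∪ S)
    (PB : (SS.flatLevel R A S).RepRing) :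
    ∃ x : PB.R →ₐ[C.O] C.O, R.IsCurveLift (mapRep (x : PB.R →+* C.O) PB.rep) := by
  obtain ⟨N, hN⟩ := R.exists_curveLift h
  have hl : IsLocalHom (algebraMap C.O C.O) := ⟨fun a ha => by simpa using ha⟩
  have hs : Function.Surjective (residue C.O ∘ algebraMap C.O C.O) := fun y => by
    obtain ⟨x, rfl⟩ := residue_surjective y
    exact ⟨x, rfl⟩
  have hres : ∀ a : C.O, toResidue hl hs a = residue C.O a := fun a =>
    (toResidue hl hs).commutes a
  have hlift : (SS.flatLevel R A S).IsRepLift hl hs N :=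
    { normal := hN.normal
      reduces := by
        refine MonoidHom.ext fun σ => ?_
        show (N σ).map (toResidue hl hs) = R.D.rbar σ
        rw [← hN.red σ]
        exact Matrix.ext fun i j => hres _
      cont := hN.cont
      eqs :=
        { det := fun σ => hN.det σ
          unram := fun q hq hqS A hA σ hσ => by
            obtain ⟨hgood, hqp⟩ := ResidualData.good_of_not_mem hbad hq hqS
            exact hN.unramified q hq hqp hgood A hA σ hσ
          unipotent := fun q hq A hA σ hσ =>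
            (hN.unipotent q (mem_Smin.1 hq).1 (mem_Smin.1 hq).2.2.2.1 A hA σ hσ).2 }
      atPlace := Flat.mem'_flatClosed_curveLift hN (R.span_rbar h) h.ne_two hgood hap hA }
  obtain ⟨x, ⟨-, hx⟩, -⟩ := PB.universal C.O hl hs N hlift
  exact ⟨x, hx ▸ hN⟩

/-- **Case S.** -/
theorem liftingSS (hp2 : p ≠ 2) : LiftingSS p := by
  classical
  intro W U M hΔ hss hirr ⟨hgood, hap⟩ hbase
  obtain ⟨hU, hlev, hUd, hsupp⟩ := hbase
  have h := oddResidual_of_semistable hp2 hΔ hss hirr
  obtain ⟨-, hsq, hpM, hmod⟩ := hlev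
  obtain ⟨C⟩ := nonempty_coeff p
  obtain ⟨R⟩ := nonempty_residualData h C
  obtain ⟨A, hA⟩ := Frobenius.exists_liesOverPrime Qbar (Fact.out : p.Prime)
  obtain ⟨T, hTne, hT, hTU, hbad⟩ := exists_framedSet_avoid h hU
  obtain ⟨L, Φ₀, hL, hΦ₀, hF₀⟩ :=
    R.exists_localChoices h T hT A (Flat.flatClosed C.O A)
  have hF : FramedPrimes p (SS.flatLevel R A (T ∪ U)) (fun v : T => (v : ℕ)) L.frob L.tame :=
    R.framedPrimes_levelData hF₀
  let PB := Classical.choice (LevelData.nonempty_repRing (R.isResidual_levelData h (T ∪ U) A _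
    (SS.mem_flatClosed_rbar R hp2 hgood hap hA)))
  obtain ⟨x, hx⟩ := SS.exists_curvePoint R h hgood hap hA hbad PB
  obtain ⟨q₀, hq₀⟩ := hTne
  have hinv : GalCoh.Reciprocity p := (CFT.cftInputs p).reciprocity
  have hGW : GalCoh.GreenbergWilesLe p := GalCoh.greenbergWilesLe p
  obtain ⟨r, -, Q, X, hnE, hX⟩ := SS.exists_aux_ss R h hgood hap hA hinv hGW T hT L hL ⟨q₀, hq₀⟩
    Φ₀ hΦ₀ U (hU.residual R) PB
  have hthree := hU.threeOK hUd
  have hS : ∀ q : ℕ, q.Prime → q ∣ M → q ∈ Smin W p ∪ (T ∪ U) ∪ {p} := fun q hq hd => by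
    have := hsupp q hq hd
    simp only [Finset.mem_union] at this ⊢
    exact this.imp (Or.imp id Or.inr) id
  exact exists_modular_of_aux hx h hT hTU hbad hthree hsq hsupp hmod
    (Flat.topPlaceHyp_flat' (R.baseSetting_odd h hbad hthree hsq hS A _) (hpM hgood) hA rfl)
    hF X hnE hX

end Fermat.Agent.General

end
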