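import Fermat.Agent.General.SS.Residual
import Fermat.Agent.General.Three.AuxU
import Fermat.Agent.Engine.Top.PlaceAux

/-!
# Auxiliary levels, supersingular case

Auxiliary levels for the flat condition at an odd prime of supersingular reduction.
-/

set_option autoImplicit false

noncomputable section

open IsLocalRing Fermat.Agent.DefRing Fermat.Agent.Deform

namespace Fermat.Agent.General.SS

open Fermat.Agent.Engine Fermat.Agent.Engine.Top Fermat.Agent.General.Flat

local notation "Qbar" => AlgebraicClosure ℚ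

variable {W : WeierstrassCurve ℤ} {p : ℕ} [Fact p.Prime] {C : Coeff p} (R : ResidualData W C)

/-- The level with the flat condition at `A`. -/
abbrev flatLevel (A : ValuationSubring Qbar) (T : Finset ℕ) : LevelData C.O :=
  R.levelData T A (flatClosed C.O A)

/-- The residual representation satisfies the flat condition. -/
theorem mem_flatClosed_rbar (hp : p ≠ 2) (hgood : W.IsGoodPrimeFor p)
    (hap : (p : ℤ) ∣ W.apOfModel p) {A : ValuationSubring Qbar} (hA : A.LiesOverPrime p) :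
    (flatClosed C.O A).mem (coordsOf fun σ : A.decompositionSubgroup ℚ => R.D.rbar (σ : GQ)) :=
  flatMem_rbar R hp hgood hap hA

/-- **Auxiliary levels**, without further generator. -/
theorem exists_aux_ss (h : OddResidual W p) (hgood : W.IsGoodPrimeFor p)
    (hap : (p : ℤ) ∣ W.apOfModel p) {A : ValuationSubring Qbar} (hA : A.LiesOverPrime p)
    (hinv : GalCoh.Reciprocity p) (hGW : GalCoh.GreenbergWilesLe p)
    (T : Finset ℕ) (hT : ∀ q ∈ T, q.Prime ∧ q ≠ p ∧ q ∉ Smin W p)
    (L : LocalChoices T) (hL : L.Valid p) (r₀ : T) (Φ₀ : T → Matrix (Fin 2) (Fin 2) C.O)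
    (hΦ₀ : ∀ v, (Φ₀ v).map (residue C.O) = R.D.rbar (L.frob v))
    (U : Finset ℕ) (hU : ∀ r ∈ U, r ≠ p ∧ (r : ResidueField C.O) = -1 ∧
      (∀ A : ValuationSubring Qbar, A.LiesOverPrime r →
        ∀ σ ∈ A.inertiaSubgroupIn ℚ, R.D.rbar σ = 1) ∧
      ∀ A : ValuationSubring Qbar, A.LiesOverPrime r → ∀ φ : GQ, A.IsFrobeniusAt φ r →
        (R.D.rbar φ).trace ≠ 0)
    (PB : (flatLevel R A (T ∪ U)).RepRing) :
    ∃ r, T.card ≤ r ∧ ∃ (Q : ℕ → Fin r → ℕ)
      (X : AuxLevels r r₀ L.frob L.tame Φ₀ (flatLevel R A (T ∪ U)) PB),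
      X.nExtra = 0 ∧ AuxPrimes p X Q := by
  obtain ⟨F, hF, hFρ⟩ := R.finiteLevel h
  have := hF
  obtain ⟨atP, hplace, hatP⟩ := exists_flatClosed_condAtP (F₀ := F) h.ne_two hA
    (isSSFlatShape_rbar R h.ne_two hgood hap hA)
    (fun σ hσ => hFρ σ ((IntermediateField.mem_fixingSubgroup_iff F σ).1 hσ))
    (flatMem_rbar R h.ne_two hgood hap hA)
  refine Three.exists_auxLevels_oddU p h.ne_two hinv hGW (flatLevel R A (T ∪ U)) PB
    (R.isResidual_levelData h (T ∪ U) A _ (mem_flatClosed_rbar R h.ne_two hgood hap hA))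
    (R.indexTwo h) _ C.residue_cyclo (R.det_rbar h _ C.residue_cyclo) atP ?_ T
    ⟨fun hp => (mem_Smin.1 hp).2.2.2.1 rfl, fun hp => (hT p hp).2.1 rfl⟩ ?_ ?_ U hU rfl
    (fun q hq => R.exists_ramified hq)
    (fun q hq hqS hqp A' hA' σ hσ => R.rbar_inertia_of_not_mem h hq hqS hqp hA' hσ) L hL r₀ Φ₀ hΦ₀
  · intro N hNc hfst htr hmem
    let := dualAlgebra (𝒪 := C.O)
    have := (isArtinianTestAlgebra_dual (𝒪 := C.O)).isArtinian
    obtain ⟨M, hM, hMN⟩ := hNc.finite_level
    exact hatP N hfst htr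
      ⟨M, hM, fun σ hσ => hMN σ ((IntermediateField.mem_fixingSubgroup_iff M σ).1 hσ)⟩ hmem
  · exact Finset.disjoint_left.2 fun q hq hq' => (hT q hq').2.2 hq
  · intro q hq
    rcases Finset.mem_union.1 hq with hq | hq
    exacts [(mem_Smin.1 hq).1, (hT q hq).1]

end Fermat.Agent.General.SS

end
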