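import Fermat.Agent.General.Flat.EllModel
import Fermat.Agent.General.Flat.Cond
import Fermat.Agent.Engine.Top.FlatShape

/-!
# The residual representation, supersingular case

The residual representation of a curve with good supersingular reduction at an odd prime: it has a
finite flat model and supersingular shape.
-/

set_option autoImplicit false

noncomputable section

open IsLocalRing Fermat.Agent.DefRing Fermat.Agent.FlatJ0 WeierstrassCurve
open scoped WeierstrassCurve.Affine

namespace Fermat.Agent.General.SS

open Fermat.Agent.Engine Fermat.Agent.Engine.Top Fermat.Agent.General.Flat Fermat.Agent.RowS56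

local notation "Qbar" => AlgebraicClosure ℚ

variable {W : WeierstrassCurve ℤ} {p : ℕ} [Fact p.Prime]

variable {C : Coeff p} (R : ResidualData W C)

/-- **The residual representation has a finite flat model.** -/
theorem flatMem_rbar (hp : p ≠ 2) (hgood : W.IsGoodPrimeFor p) (hap : (p : ℤ) ∣ W.apOfModel p)
    {A : ValuationSubring Qbar} (hA : A.LiesOverPrime p) :
    FlatMem A (atPlace A R.D.rbar) := by
  have hss := isGoodSupersingular_of_dvd hgood hap
  let ι : (Fin 2 → ZMod p) →+ EllLocal.PtQ (W.map (Int.castRingHom ℚ)) :=
    (Submodule.subtype _).toAddMonoidHom.comp R.basis.equivFun.symm.toLinearMap.toAddMonoidHom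
  have hι : ∀ σ v, ι (matAct R.primeRep σ v) = σ • ι v := fun σ v => by
    have e : R.basis.equivFun.symm (matAct R.primeRep σ v) =
        WeierstrassCurve.Affine.Point.galoisRepModuleEnd (K := Qbar) ℚ
          (W.map (Int.castRingHom ℚ)) p σ (R.basis.equivFun.symm v) := by
      refine R.basis.equivFun.injective ?_
      rw [LinearEquiv.apply_symm_apply, matAct_apply, Module.Basis.equivFun_apply,
        ← LinearMap.toMatrix_mulVec_repr R.basis R.basis, ← Module.Basis.equivFun_apply,
        LinearEquiv.apply_symm_apply]
      rfl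
    exact congrArg Subtype.val e
  obtain ⟨M, hM⟩ := exists_isModel_supersingular hp hss (matAct R.primeRep) ι
    (Subtype.val_injective.comp R.basis.equivFun.symm.injective) hι 1 fun v => by
      rw [pow_one, ← Nat.cast_smul_eq_nsmul (ZMod p), ZMod.natCast_self, zero_smul]
  have h1 : FlatMem A (atPlace A R.primeRep) := hasModelAt_of_isModel ⟨Fact.out, hA⟩ hM
  have h2 := h1.map C.resHom
  have e : (fun i => C.resHom (atPlace A R.primeRep i)) = atPlace A R.D.rbar := funext fun i => by
    show C.resHom _ = R.D.rbar (i.1 : GQ) i.2.1 i.2.2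
    rw [R.rbar_eq_map]
    rfl
  rwa [e] at h2

/-- **Supersingular shape.** -/
theorem isSSFlatShape_rbar (hp : p ≠ 2) (hgood : W.IsGoodPrimeFor p) (hap : (p : ℤ) ∣ W.apOfModel p)
    {A : ValuationSubring Qbar} (hA : A.LiesOverPrime p) : IsSSFlatShape A p R.D.rbar := by
  have : (W.map (Int.castRingHom ℚ)).IsElliptic := EllLocal.isElliptic_map_rat hgood
  refine ⟨⟨1, ?_⟩, fun e σ => ?_⟩
  · rw [show conjRep (1 : (Matrix (Fin 2) (Fin 2) _)ˣ) R.D.rbar = R.D.rbar from
      MonoidHom.ext fun x => by rw [conjRep_apply, inv_one, Units.val_one, one_mul, mul_one]]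
    exact isSSShape_of_supersingular hA hp (isGoodSupersingular_of_dvd hgood hap) R.isTorsionMatrix
  · subst e
    exact det_pow_sub_one R.isTorsionMatrix σ

end Fermat.Agent.General.SS

end
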